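import Fermat.Agent.H45.SS.Hartogs

/-!
# P-SS2 : common definitions and the exact abstract statements (helper11)

Chart language of `Fermat.Agent.H22.KL` / `Fermat.Agent.H45`: `A` a discrete valuation ring with
uniformiser `ϖ`, `E₀` a field of characteristic zero, finite over `K₀(y)`, `B = chartClosure`,
`C = gaussClosure`, `𝔪` a maximal ideal of `B(y)` containing `ϖ`.

* `InLoc A E₀ y 𝔪 z` : `z ∈ B_𝔪`;  `IsLocUnit A E₀ y 𝔪 z` : `z ∈ B_𝔪ˣ`.
* `IsVertical A E₀ ϖ y V` : `V` is one of the (finitely many) discrete valuation rings of `E₀`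
  above the Gauss valuation of `K₀(y)` (a component of the special fibre);
  `Through A E₀ y 𝔪 V` : the centre of `V` on `B(y)` is contained in `𝔪`.
* `IsRegPoint A E₀ ϖ y 𝔪 V x₁ x₂` : `B_𝔪` is regular with parameters `x₁, x₂`, where `x₁` is a
  local equation of the branch `V` (`𝔭_V B_𝔪 = x₁ B_𝔪`, `𝔪 B_𝔪 = (x₁, x₂)`).
* `RegFactStatement` : local factoriality at a regular point (row SS2-A1 (B)).
* `LPZOneStatement`, `LPZThreeStatement` : local principalisation with roots of unity at a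
  regular point with one resp. three branches (row SS2-A2).
-/

set_option autoImplicit false

noncomputable section

namespace Fermat.Agent.H11.SS2

open Fermat.Agent.H22.KL

section Defs

variable (A : Type) [CommRing A] (E₀ : Type) [Field E₀] [Algebra A E₀]

/-- `z ∈ B(y)_𝔪`: some `b ∈ B(y) ∖ 𝔪` has `b z ∈ B(y)`. -/
def InLoc (y : E₀) (𝔪 : Ideal (chartClosure A E₀ y)) (z : E₀) : Prop :=
  ∃ b : chartClosure A E₀ y, b ∉ 𝔪 ∧ (b : E₀) * z ∈ chartClosure A E₀ y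

/-- `z` is a unit of `B(y)_𝔪`. -/
def IsLocUnit (y : E₀) (𝔪 : Ideal (chartClosure A E₀ y)) (z : E₀) : Prop :=
  z ≠ 0 ∧ InLoc A E₀ y 𝔪 z ∧ InLoc A E₀ y 𝔪 z⁻¹

/-- `V` is a vertical valuation of the chart `y`: a discrete valuation ring of `E₀` containing
the Gauss closure `C(y)`, in which `ϖ` is not a unit. -/
def IsVertical (ϖ : A) (y : E₀) (V : ValuationSubring E₀) : Prop :=
  V ≠ ⊤ ∧ IsPrincipalIdealRing V ∧ (∀ z ∈ gaussClosure A E₀ ϖ y, z ∈ V) ∧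
    algebraMap A E₀ ϖ ∈ V.nonunits

/-- The centre of `V` on `B(y)` is contained in `𝔪`. -/
def Through (y : E₀) (𝔪 : Ideal (chartClosure A E₀ y)) (V : ValuationSubring E₀) : Prop :=
  ∀ s : chartClosure A E₀ y, (s : E₀) ∈ V.nonunits → s ∈ 𝔪

/-- `z ≡ c` modulo the maximal ideal of `V` (and `z ∈ V`). -/
def CongrAt (V : ValuationSubring E₀) (z c : E₀) : Prop := z ∈ V ∧ z - c ∈ V.nonunits

/-- **Regular point**: `V` is a vertical valuation through `𝔪`, `x₁ ∈ B` is a uniformiser of `V`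
generating its centre locally at `𝔪`, and `x₁, x₂` generate `𝔪 B_𝔪`. -/
structure IsRegPoint (ϖ : A) (y : E₀) (𝔪 : Ideal (chartClosure A E₀ y))
    (V : ValuationSubring E₀) (x₁ x₂ : E₀) : Prop where
  vert : IsVertical A E₀ ϖ y V
  thru : Through A E₀ y 𝔪 V
  mem₁ : x₁ ∈ chartClosure A E₀ y
  mem₂ : x₂ ∈ chartClosure A E₀ y
  mem_max₂ : ∀ h : x₂ ∈ chartClosure A E₀ y, (⟨x₂, h⟩ : chartClosure A E₀ y) ∈ 𝔪
  unif : IsUniformiser E₀ V x₁
  prin : ∀ s : chartClosure A E₀ y, (s : E₀) ∈ V.nonunits → InLoc A E₀ y 𝔪 ((s : E₀) / x₁)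
  gen : ∀ s : chartClosure A E₀ y, s ∈ 𝔪 →
    ∃ c₁ c₂ : E₀, InLoc A E₀ y 𝔪 c₁ ∧ InLoc A E₀ y 𝔪 c₂ ∧ (s : E₀) = c₁ * x₁ + c₂ * x₂

end Defs

/-- **REGFACT** (row SS2-A1 (B)): at a regular point, a function whose order at every
height-one prime of `B_𝔪` (places centred at `𝔪`, vertical valuations through `𝔪`) is
divisible by `n` is a unit of `B_𝔪` times an `n`-th power. -/
def RegFactStatement : Prop :=
  ∀ (A : Type) [CommRing A] [IsDomain A] [IsDiscreteValuationRing A]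
    (E₀ : Type) [Field E₀] [Algebra A E₀] [CharZero E₀],
    Function.Injective (algebraMap A E₀) →
    ∀ (ϖ : A), Irreducible ϖ → ∀ (y : E₀), Transcendental A y →
    (∃ n : ℕ, Nonempty (Module.Basis (Fin n) (chartField A E₀ y) E₀)) →
    ∀ (𝔪 : Ideal (chartClosure A E₀ y)), 𝔪.IsMaximal →
      algebraMap A (chartClosure A E₀ y) ϖ ∈ 𝔪 →
      ∀ (V : ValuationSubring E₀) (x₁ x₂ : E₀), IsRegPoint A E₀ ϖ y 𝔪 V x₁ x₂ →
      ∀ (n : ℕ), 0 < n → ∀ u : E₀, u ≠ 0 →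
        (∀ V' : ValuationSubring E₀, Fermat.Agent.H45.CentredAt A E₀ y 𝔪 V' → OrdDvd E₀ V' n u) →
        (∀ V' : ValuationSubring E₀, IsVertical A E₀ ϖ y V' → Through A E₀ y 𝔪 V' →
          OrdDvd E₀ V' n u) →
        ∃ p : E₀, p ≠ 0 ∧ IsLocUnit A E₀ y 𝔪 (u * p ^ n)

/-- **LPZ, one branch** (row SS2-A2 (1)): at a regular point with a single branch `V`, a
function `u ≡ 1` on `V` which is locally a unit times an `n`-th power has a local `n`-th root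
`Hinv⁻¹` with `Hinv ≡ 1` on `V`. -/
def LPZOneStatement : Prop :=
  ∀ (A : Type) [CommRing A] [IsDomain A] [IsDiscreteValuationRing A]
    (E₀ : Type) [Field E₀] [Algebra A E₀] [CharZero E₀],
    Function.Injective (algebraMap A E₀) →
    ∀ (ϖ : A), Irreducible ϖ → ∀ (y : E₀), Transcendental A y →
    (∃ n : ℕ, Nonempty (Module.Basis (Fin n) (chartField A E₀ y) E₀)) →
    ∀ (𝔪 : Ideal (chartClosure A E₀ y)), 𝔪.IsMaximal →
      algebraMap A (chartClosure A E₀ y) ϖ ∈ 𝔪 →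
      ∀ (V : ValuationSubring E₀) (x₁ x₂ : E₀), IsRegPoint A E₀ ϖ y 𝔪 V x₁ x₂ →
      (∀ V' : ValuationSubring E₀, IsVertical A E₀ ϖ y V' → Through A E₀ y 𝔪 V' → V' = V) →
      ∀ (n : ℕ), 0 < n → ∀ u p : E₀, CongrAt E₀ V u 1 → p ≠ 0 →
        IsLocUnit A E₀ y 𝔪 (u * p ^ n) →
        ∃ Hinv : E₀, IsLocUnit A E₀ y 𝔪 (u * Hinv ^ n) ∧ CongrAt E₀ V Hinv 1

/-- **LPZ, three branches** (row SS2-A2 (3)): at a regular point `𝔪 = (z₁, z₂)` through which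
exactly the three vertical valuations `V₁, V₂, V₃` pass, with local equations `z₁`, `z₂`,
`z₁ + z₂`, a function `u ≡ 1` on the three branches which is locally a unit times an `n`-th
power (`n` prime to the residue characteristic `q`, `μ_n ⊆ A`) has a local `n`-th root `Hinv⁻¹`
with `Hinv ≡ cᵢ` on `Vᵢ`, `cᵢ ∈ μ_n(A)`. -/
def LPZThreeStatement : Prop :=
  ∀ (A : Type) [CommRing A] [IsDomain A] [IsDiscreteValuationRing A]
    (E₀ : Type) [Field E₀] [Algebra A E₀] [CharZero E₀],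
    Function.Injective (algebraMap A E₀) →
    ∀ (ϖ : A), Irreducible ϖ → ∀ (y : E₀), Transcendental A y →
    (∃ n : ℕ, Nonempty (Module.Basis (Fin n) (chartField A E₀ y) E₀)) →
    ∀ (q : ℕ), q.Prime → ¬ IsUnit ((q : ℕ) : A) →
    ∀ (𝔪 : Ideal (chartClosure A E₀ y)), 𝔪.IsMaximal →
      algebraMap A (chartClosure A E₀ y) ϖ ∈ 𝔪 →
      ∀ (V₁ V₂ V₃ : ValuationSubring E₀) (z₁ z₂ : E₀),
        V₁ ≠ V₂ → V₁ ≠ V₃ → V₂ ≠ V₃ →
        IsRegPoint A E₀ ϖ y 𝔪 V₁ z₁ z₂ → IsRegPoint A E₀ ϖ y 𝔪 V₂ z₂ z₁ →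
        IsRegPoint A E₀ ϖ y 𝔪 V₃ (z₁ + z₂) z₁ →
        (∀ V' : ValuationSubring E₀, IsVertical A E₀ ϖ y V' → Through A E₀ y 𝔪 V' →
          V' = V₁ ∨ V' = V₂ ∨ V' = V₃) →
        ∀ (n : ℕ), 0 < n → IsUnit ((n : ℕ) : A) → ∀ ζ : A, IsPrimitiveRoot ζ n →
        ∀ u p : E₀, CongrAt E₀ V₁ u 1 → CongrAt E₀ V₂ u 1 → CongrAt E₀ V₃ u 1 → p ≠ 0 →
          IsLocUnit A E₀ y 𝔪 (u * p ^ n) →
          ∃ (Hinv : E₀) (c₁ c₂ c₃ : A), c₁ ^ n = 1 ∧ c₂ ^ n = 1 ∧ c₃ ^ n = 1 ∧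
            IsLocUnit A E₀ y 𝔪 (u * Hinv ^ n) ∧
            CongrAt E₀ V₁ Hinv (algebraMap A E₀ c₁) ∧
            CongrAt E₀ V₂ Hinv (algebraMap A E₀ c₂) ∧
            CongrAt E₀ V₃ Hinv (algebraMap A E₀ c₃)

end Fermat.Agent.H11.SS2
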