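import Mathlib
import Fermat.Prelude.Def_ModularCurve_HeckeOperator
import Fermat.Prelude.Def_ModularCurve_ArithmeticGalois
import Fermat.Prelude.Def_FLTPrelim_Ramification

/-!
# P-SS2 (S36, Carayol) : the CONTRACT between the geometry and the `J`-side (helper11)

Level `M = L q` with `q ‖ L` (so `q² ‖ M`), `L = M' q`, `q ∤ M'`.  The two degeneracy maps
`α, β : F_L → F_{L q}` are the prelude maps `heckeAlphaBar`, `heckeBetaBar` (`β = (t ↦ t ^ q)`).

* `ss2NormAlong φ f` : the norm of `f` along a field embedding `φ : F → F'`.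
* `NewInvariantFFStatement L q` : **(KC-FF)**, the function-field form of
  "`N^{I_q}` is killed by a fixed `c > 0`", `N = ker π_{1*} ∩ ker π_{2*} ⊆ J₀(L q)(ℚ̄)`:
  if `div f = m D` (`q ∤ m`), the class of `D` is fixed by the inertia group `I_A`
  (`σ f / f` is an `m`-th power for `σ ∈ I_A`), and both norms `N_α f`, `N_β f` are `m`-th
  powers, then `f ^ c` is an `m`-th power.  (Intended `c = q (q - 1) (q² - 1)`.)
* `ModelNewInvStatement M' q` : the model-level form over a number field `K₁` with a discrete
  valuation ring `A₀` in which `q` is a UNIFORMISER (unramified base): for `u` in the model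
  field of level `M' q²` with `m ∣ div u`, whose two norms are (constants times) `m`-th powers,
  `u ^ c` is a constant times an `m`-th power.
-/

set_option autoImplicit false

noncomputable section

namespace Fermat.Agent.H11.SS2

open AlgebraicCurve ModularCurve

/-- The norm along a field embedding `φ : F → F'` (the norm of the extension `F' / φ(F)`, with
values in `F`). -/
def ss2NormAlong {K F F' : Type*} [Field K] [Field F] [Field F'] [Algebra K F] [Algebra K F']
    (φ : F →ₐ[K] F') (f : F') : F :=
  letI : Algebra F F' := φ.toRingHom.toAlgebra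
  Algebra.norm F f

/-- **(KC-FF)** at level `L q` (intended: `q ‖ L`).  See the module docstring. -/
def NewInvariantFFStatement (L q : ℕ) [NeZero L] [NeZero q] : Prop :=
  ∀ (A : ValuationSubring (AlgebraicClosure ℚ)), A.LiesOverPrime q →
    ∃ c : ℕ, 0 < c ∧ ∀ (m : ℕ), 0 < m → ¬ q ∣ m →
      ∀ f : modularFunctionFieldBar (L * q), f ≠ 0 →
        (∀ P : Place (AlgebraicClosure ℚ) (modularFunctionFieldBar (L * q)),
          (m : ℤ) ∣ P.ord f) →
        (∀ σ ∈ A.inertiaSubgroupIn ℚ, ∃ w : modularFunctionFieldBar (L * q),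
          w ^ m * f = arithmeticGalois (modularFunctionFieldFull (L * q)) σ • f) →
        (∃ h : modularFunctionFieldBar L,
          h ^ m = ss2NormAlong (heckeAlphaBar (AlgebraicClosure ℚ) L q) f) →
        (∃ h : modularFunctionFieldBar L,
          h ^ m = ss2NormAlong (heckeBetaBar (AlgebraicClosure ℚ) L q) f) →
        ∃ w : modularFunctionFieldBar (L * q), w ^ m = f ^ c

/-- The exponent of the intended proof of (KC-FF). -/
def ss2Exponent (q : ℕ) : ℕ := q * (q - 1) * (q ^ 2 - 1)

/-- **(KC-MODEL)**: the model-level statement at level `M' q²` over an UNRAMIFIED base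
(`q` is a uniformiser of `A₀`); `K₁` contains the `m`-th roots of unity.  Constants are
allowed in the hypotheses and in the conclusion. -/
def ModelNewInvStatement (M' q : ℕ) [NeZero M'] [NeZero q] : Prop :=
  ∀ (K₁ : Type) [Field K₁] [Algebra ℚ K₁] [FiniteDimensional ℚ K₁]
    (A₀ : Type) [CommRing A₀] [IsDomain A₀] [IsDiscreteValuationRing A₀]
    [Algebra A₀ K₁] [IsFractionRing A₀ K₁],
    Irreducible ((q : ℕ) : A₀) →
    ∀ (m : ℕ), 0 < m → IsUnit ((m : ℕ) : A₀) → (∃ ζ : K₁, IsPrimitiveRoot ζ m) →
    ∀ u : laurentBaseChange K₁ (modularFunctionFieldFull (M' * q * q)), u ≠ 0 →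
      (∀ P : Place K₁ (laurentBaseChange K₁ (modularFunctionFieldFull (M' * q * q))),
        (m : ℤ) ∣ P.ord u) →
      (∃ (γ : K₁) (h : laurentBaseChange K₁ (modularFunctionFieldFull (M' * q))), γ ≠ 0 ∧
        algebraMap K₁ _ γ * h ^ m = ss2NormAlong (heckeAlphaBar K₁ (M' * q) q) u) →
      (∃ (γ : K₁) (h : laurentBaseChange K₁ (modularFunctionFieldFull (M' * q))), γ ≠ 0 ∧
        algebraMap K₁ _ γ * h ^ m = ss2NormAlong (heckeBetaBar K₁ (M' * q) q) u) →
      ∃ (γ : K₁) (w : laurentBaseChange K₁ (modularFunctionFieldFull (M' * q * q))), γ ≠ 0 ∧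
        algebraMap K₁ _ γ * w ^ m = u ^ ss2Exponent q

end Fermat.Agent.H11.SS2
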