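import Mathlib

/-!
# P-SS2 : Dedekind-Kummer statements for a discrete valuation subring (helper11)

Mathlib only.  `O` a discrete valuation subring of `K` with uniformiser `π`, `L / K` finite,
`L = K[z]`, `z` a root of a monic `P ∈ O[T]` of degree `n = [L : K]`.

* `DKSplitStatement` (row SS2-A8): `P ≡ T^(n-1) (T + c) mod 𝔪_O` with `c ∈ Oˣ` and
  `P(0) = π · unit`.  Then there are EXACTLY two valuation subrings of `L` above `O`:
  `W₁` (`z` a uniformiser, `π = unit · z^(n-1)`, residue degree one) and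
  `W₂` (`z + c ∈ 𝔪`, `π` a uniformiser, residue degree one).
  [Application: `O = V₁₀`, `L = E₀` over `α(F_L)`, `z = Z = H₂ - H`, `c = Y₁`: `W₁ = V₁₁`,
  `W₂ = V₂₀`; and over `β(F_L)` with `O = β(V₀₁)`, `z = -Z`, `c = X₂`: `W₁ = V₁₁`, `W₂ = V₀₂`.]
* `DKInsepStatement` (row SS2-A9): residue characteristic `p = n`, `P ≡ T^p - a mod 𝔪_O`, `a`
  not a `p`-th power modulo `𝔪_O`.  Then there is EXACTLY one valuation subring `W` of `L` above
  `O`; `π` is a uniformiser of `W`, `W = O[z]`, the residues of `1, z, …, z^(p-1)` are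
  independent over the residue field of `O`, and the residue extension is purely inseparable.
  [Application: `O = V₀₁`, `z = Z`, `a = X₁`: `W = V₀₂`; over `β(V₁₀)`: `W = V₂₀`.]
-/

set_option autoImplicit false

noncomputable section

namespace Fermat.Agent.H11.SS2

open Polynomial

/-- `t` is a uniformiser of the valuation subring `V` (same formula as
`Fermat.Agent.H22.KL.IsUniformiser`). -/
def DKUnif {L : Type} [Field L] (V : ValuationSubring L) (t : L) : Prop :=
  t ≠ 0 ∧ t ∈ V.nonunits ∧ ∀ y ∈ V.nonunits, y / t ∈ V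

/-- The residue field of `W` equals that of `O` (residue degree one). -/
def DKResOne {K L : Type} [Field K] [Field L] [Algebra K L] (O : ValuationSubring K)
    (W : ValuationSubring L) : Prop :=
  ∀ w ∈ W, ∃ a ∈ O, w - algebraMap K L a ∈ W.nonunits

/-- **DK-SPLIT** (row SS2-A8).  See the module docstring. -/
def DKSplitStatement : Prop :=
  ∀ (K L : Type) [Field K] [Field L] [Algebra K L] [FiniteDimensional K L]
    (O : ValuationSubring K) (π : K), IsPrincipalIdealRing O → DKUnif O π →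
    ∀ (n : ℕ), 2 ≤ n → Module.finrank K L = n →
    ∀ (P : K[X]) (z : L) (c : K), P.Monic → P.natDegree = n → (∀ i, P.coeff i ∈ O) →
      aeval z P = 0 → (∀ w : L, ∃ Q : K[X], aeval z Q = w) →
      c ∈ O → c ∉ O.nonunits →
      (∀ i, (P - X ^ (n - 1) * (X + C c)).coeff i ∈ O.nonunits) →
      P.coeff 0 / π ∈ O → P.coeff 0 / π ∉ O.nonunits →
      ∃ W₁ W₂ : ValuationSubring L, W₁ ≠ W₂ ∧
        IsPrincipalIdealRing W₁ ∧ IsPrincipalIdealRing W₂ ∧
        W₁.comap (algebraMap K L) = O ∧ W₂.comap (algebraMap K L) = O ∧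
        (∀ V : ValuationSubring L, V.comap (algebraMap K L) = O → V = W₁ ∨ V = W₂) ∧
        DKUnif W₁ z ∧ algebraMap K L π / z ^ (n - 1) ∈ W₁ ∧
        z ^ (n - 1) / algebraMap K L π ∈ W₁ ∧
        z + algebraMap K L c ∈ W₂.nonunits ∧ DKUnif W₂ (algebraMap K L π) ∧
        DKResOne O W₁ ∧ DKResOne O W₂

/-- **DK-INSEP** (row SS2-A9).  See the module docstring. -/
def DKInsepStatement : Prop :=
  ∀ (K L : Type) [Field K] [Field L] [Algebra K L] [FiniteDimensional K L]
    (O : ValuationSubring K) (π : K), IsPrincipalIdealRing O → DKUnif O π →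
    ∀ (p : ℕ), p.Prime → (p : K) ∈ O.nonunits → Module.finrank K L = p →
    ∀ (P : K[X]) (z : L) (a : K), P.Monic → P.natDegree = p → (∀ i, P.coeff i ∈ O) →
      aeval z P = 0 → a ∈ O →
      (∀ i, (P - (X ^ p - C a)).coeff i ∈ O.nonunits) →
      (∀ b ∈ O, a - b ^ p ∉ O.nonunits) →
      ∃ W : ValuationSubring L, IsPrincipalIdealRing W ∧ W.comap (algebraMap K L) = O ∧
        (∀ V : ValuationSubring L, V.comap (algebraMap K L) = O → V = W) ∧
        DKUnif W (algebraMap K L π) ∧
        (∀ c : Fin p → K, (∀ j, c j ∈ O) →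
          (∑ j, algebraMap K L (c j) * z ^ (j : ℕ)) ∈ W.nonunits → ∀ j, c j ∈ O.nonunits) ∧
        (∀ w ∈ W, ∃ c : Fin p → K, (∀ j, c j ∈ O) ∧
          w = ∑ j, algebraMap K L (c j) * z ^ (j : ℕ)) ∧
        (∀ w ∈ W, ∃ b ∈ O, w ^ p - algebraMap K L b ∈ W.nonunits)

end Fermat.Agent.H11.SS2
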