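import Fermat.Agent.H11.SS2.DKDefs

/-!
# P-SS2 : the three vertical valuations at level `M' q²` - the KEYSTONE interface (helper11)

Mathlib only.  `F` = function field of level `L = M' q`, `E` = function field of level `L q`,
`α β : F →+* E` the two degeneracy embeddings, `O₁ = V₁₀`, `O₂ = V₀₁` the two vertical
valuations of `F`, `X₁ = H₁ - H^q`, `Y₁ = H - H₁^q ∈ F`, `Z = H₂ - H ∈ E`
(`Z + α Y₁ = β X₁ = X₂`).

* `Val3Data α β O₁ O₂ V₂₀ V₁₁ V₀₂ q Y₁ Z` : everything the consumers (REGSS, REGSM, REG11, CLASS,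
  NORMRED/TABLE, TORIC, KCABS, GAUSS-TOWER) use about the three valuations `V₂₀, V₁₁, V₀₂` of `E`:

      | along `α`                         | along `β`
  V₂₀ | above `O₁`, `e = f = 1`           | above `O₁`, `e = 1`, `f = q` purely inseparable
  V₁₁ | above `O₁`, `e = q - 1`, `f = 1`  | above `O₂`, `e = q - 1`, `f = 1`
  V₀₂ | above `O₂`, `e = 1`, `f = q` p.i. | above `O₂`, `e = f = 1`

  uniformisers: `q` and `X₂ = Z + α Y₁` for `V₂₀`; `Z` for `V₁₁` (`q = unit · Z^(q-1)`);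
  `q` and `α Y₁` for `V₀₂`.
* `Val3AbsStatement` (row SS2-A12 VAL3-ABS): `Val3Data` from the two Kronecker polynomials
  (helper62's `kronecker_twice`) by `DKSplitStatement` / `DKInsepStatement`.
-/

set_option autoImplicit false

noncomputable section

namespace Fermat.Agent.H11.SS2

open Polynomial

/-- `z` is a unit of the valuation subring `V`. -/
def VUnit {L : Type} [Field L] (V : ValuationSubring L) (z : L) : Prop := z ∈ V ∧ z⁻¹ ∈ V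

/-- Residue degree one of `W` over `O` along the embedding `φ`. -/
def ResOneAlong {K L : Type} [Field K] [Field L] (φ : K →+* L) (O : ValuationSubring K)
    (W : ValuationSubring L) : Prop :=
  ∀ w ∈ W, ∃ a ∈ O, w - φ a ∈ W.nonunits

/-- The residue extension of `W` over `O` along `φ` is purely inseparable of exponent one and
has the basis `1, z, …, z^(q-1)`. -/
def InsepAlong {K L : Type} [Field K] [Field L] (φ : K →+* L) (O : ValuationSubring K)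
    (W : ValuationSubring L) (q : ℕ) (z : L) : Prop :=
  (∀ w ∈ W, ∃ b ∈ O, w ^ q - φ b ∈ W.nonunits) ∧
  (∀ w ∈ W, ∃ c : Fin q → K, (∀ j, c j ∈ O) ∧ w - ∑ j, φ (c j) * z ^ (j : ℕ) ∈ W.nonunits) ∧
  (∀ c : Fin q → K, (∀ j, c j ∈ O) → (∑ j, φ (c j) * z ^ (j : ℕ)) ∈ W.nonunits →
    ∀ j, c j ∈ O.nonunits)

/-- **The three vertical valuations.**  See the module docstring. -/
structure Val3Data {F E : Type} [Field F] [Field E] (α β : F →+* E)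
    (O₁ O₂ : ValuationSubring F) (V₂₀ V₁₁ V₀₂ : ValuationSubring E) (q : ℕ) (Y₁ : F) (Z : E) :
    Prop where
  ne₁ : V₂₀ ≠ V₁₁
  ne₂ : V₂₀ ≠ V₀₂
  ne₃ : V₁₁ ≠ V₀₂
  pir₂₀ : IsPrincipalIdealRing V₂₀
  pir₁₁ : IsPrincipalIdealRing V₁₁
  pir₀₂ : IsPrincipalIdealRing V₀₂
  comap₂₀α : V₂₀.comap α = O₁
  comap₁₁α : V₁₁.comap α = O₁
  comap₀₂α : V₀₂.comap α = O₂
  comap₂₀β : V₂₀.comap β = O₁
  comap₁₁β : V₁₁.comap β = O₂
  comap₀₂β : V₀₂.comap β = O₂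
  allα₁ : ∀ V : ValuationSubring E, V.comap α = O₁ → V = V₂₀ ∨ V = V₁₁
  allα₂ : ∀ V : ValuationSubring E, V.comap α = O₂ → V = V₀₂
  allβ₁ : ∀ V : ValuationSubring E, V.comap β = O₁ → V = V₂₀
  allβ₂ : ∀ V : ValuationSubring E, V.comap β = O₂ → V = V₁₁ ∨ V = V₀₂
  unif₂₀ : DKUnif V₂₀ (q : E)
  unif₀₂ : DKUnif V₀₂ (q : E)
  unif₁₁ : DKUnif V₁₁ Z
  ram₁₁ : VUnit V₁₁ ((q : E) / Z ^ (q - 1))
  Z₂₀ : VUnit V₂₀ Z
  Z₀₂ : VUnit V₀₂ Z
  Y₀₂ : DKUnif V₀₂ (α Y₁)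
  Y₁₁ : VUnit V₁₁ (α Y₁)
  Y₂₀ : VUnit V₂₀ (α Y₁)
  X₂₀ : DKUnif V₂₀ (Z + α Y₁)
  X₁₁ : VUnit V₁₁ (Z + α Y₁)
  X₀₂ : VUnit V₀₂ (Z + α Y₁)
  res₂₀α : ResOneAlong α O₁ V₂₀
  res₁₁α : ResOneAlong α O₁ V₁₁
  res₁₁β : ResOneAlong β O₂ V₁₁
  res₀₂β : ResOneAlong β O₂ V₀₂
  insep₀₂α : InsepAlong α O₂ V₀₂ q Z
  insep₂₀β : InsepAlong β O₁ V₂₀ q Z

/-- **VAL3-ABS** (row SS2-A12).  Hypotheses: `O₁ ≠ O₂` discrete valuation subrings of `F` with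
uniformiser `q` (a prime number, the residue characteristic); `X₁ = q · unit` at `O₁` and a unit
of `O₂`; `Y₁` a unit of `O₁` and `q · unit` at `O₂`; `E` has degree `q` over `α F` and over `β F`;
a valuation subring of `E` lies above `O₁` or `O₂` along `α` iff it does so along `β`;
`Z + α Y₁ = β X₁`;
`Pα ∈ (O₁ ∩ O₂)[T]` monic of degree `q` with `Pα(Z) = 0` (coefficients mapped by `α`),
`Pα ≡ T^(q-1) (T + Y₁) mod 𝔪_{O₁}`, `Pα(0) / q` a unit of `O₁`, `Pα ≡ T^q - X₁ mod 𝔪_{O₂}`,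
`X₁` not a `q`-th power modulo `𝔪_{O₂}`;
`Pβ ∈ (O₁ ∩ O₂)[T]` monic of degree `q` with `Pβ(-Z) = 0` (coefficients mapped by `β`),
`Pβ ≡ T^(q-1) (T + X₁) mod 𝔪_{O₂}`, `Pβ(0) / q` a unit of `O₂`, `Pβ ≡ T^q - Y₁ mod 𝔪_{O₁}`,
`Y₁` not a `q`-th power modulo `𝔪_{O₁}`.
Conclusion: the three valuations exist, with all the data of `Val3Data`. -/
def Val3AbsStatement : Prop :=
  ∀ (F E : Type) [Field F] [Field E] [CharZero F] (α β : F →+* E)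
    (O₁ O₂ : ValuationSubring F), IsPrincipalIdealRing O₁ → IsPrincipalIdealRing O₂ →
    O₁ ≠ O₂ →
    ∀ (q : ℕ), q.Prime → DKUnif O₁ (q : F) → DKUnif O₂ (q : F) →
    ∀ (X₁ Y₁ : F) (Z : E),
      VUnit O₁ (X₁ / (q : F)) → VUnit O₂ X₁ → VUnit O₁ Y₁ → VUnit O₂ (Y₁ / (q : F)) →
      (@FiniteDimensional F E _ _ (@Algebra.toModule F E _ _ α.toAlgebra) ∧
        @Module.finrank F E _ _ (@Algebra.toModule F E _ _ α.toAlgebra) = q) →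
      (@FiniteDimensional F E _ _ (@Algebra.toModule F E _ _ β.toAlgebra) ∧
        @Module.finrank F E _ _ (@Algebra.toModule F E _ _ β.toAlgebra) = q) →
      (∀ V : ValuationSubring E, (V.comap α = O₁ ∨ V.comap α = O₂) ↔
        (V.comap β = O₁ ∨ V.comap β = O₂)) →
      Z + α Y₁ = β X₁ →
      ∀ (Pα Pβ : F[X]), Pα.Monic → Pα.natDegree = q → Pβ.Monic → Pβ.natDegree = q →
        (∀ i, Pα.coeff i ∈ O₁ ∧ Pα.coeff i ∈ O₂) → (∀ i, Pβ.coeff i ∈ O₁ ∧ Pβ.coeff i ∈ O₂) →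
        (Pα.map α).eval Z = 0 → (Pβ.map β).eval (-Z) = 0 →
        (∀ i, (Pα - X ^ (q - 1) * (X + C Y₁)).coeff i ∈ O₁.nonunits) →
        VUnit O₁ (Pα.coeff 0 / (q : F)) →
        (∀ i, (Pα - (X ^ q - C X₁)).coeff i ∈ O₂.nonunits) →
        (∀ b ∈ O₂, X₁ - b ^ q ∉ O₂.nonunits) →
        (∀ i, (Pβ - X ^ (q - 1) * (X + C X₁)).coeff i ∈ O₂.nonunits) →
        VUnit O₂ (Pβ.coeff 0 / (q : F)) →
        (∀ i, (Pβ - (X ^ q - C Y₁)).coeff i ∈ O₁.nonunits) →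
        (∀ b ∈ O₁, Y₁ - b ^ q ∉ O₁.nonunits) →
        ∃ V₂₀ V₁₁ V₀₂ : ValuationSubring E, Val3Data α β O₁ O₂ V₂₀ V₁₁ V₀₂ q Y₁ Z

end Fermat.Agent.H11.SS2
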