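import Fermat.Agent.H7.SS2.Vertical
import Fermat.Agent.H11.SS2.Val3Defs

/-!
# P-SS2 : the CONCRETE leaves at the model level (helper11)

Levels `L = M' q` and `L q = M' q q`, `q` prime, `q ∤ M'`; `K₁` a number field, `A₀` a discrete
valuation ring of `K₁` in which `q` is a uniformiser; `F = ModelField K₁ (M' q)`,
`E = ModelField K₁ (M' q q)`, `α = heckeAlphaBar K₁ (M' q) q` (inclusion),
`β = heckeBetaBar K₁ (M' q) q` (`t ↦ t^q`); `V₁₀ = vInf`, `V₀₁ = vZero Wq` (helper7);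
`H` a Hauptmodul with `q`-expansion `h₀` (level 4 for `q` odd, level 9 for `q = 2`),
`H₁ = H(t^q)`, `X₁ = H₁ - H^q`, `Y₁ = H - H₁^q`.

* `ModelChartEqStatement M' q` (CHART-EQ): `B(j(t^q)) = B(j)` at level `M' q q`.
* `ModelUnit3Statement M' q h₀` (UNIT3 = (U2), (U2')): `Y₁` is not a `q`-th power modulo
  `𝔪_{V₁₀}`, `X₁` is not a `q`-th power modulo `𝔪_{V₀₁}`.
* `ModelVertIffStatement M' q` (VERT-IFF): a valuation subring of `E` lies above `V₁₀` or `V₀₁`
  along `α` iff it does so along `β`.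
* `ModelCuspRootStatement N` (CUSP-ROOT): the cusp `∞` of the chart `j⁻¹` at level `N`:
  a unit of the local ring which is `≡ 1` on a valuation through the point is, up to a
  constant `c ≡ 1 mod q`, an `n`-th power in `K₁((t))`.
-/

set_option autoImplicit false

noncomputable section

namespace Fermat.Agent.H11.SS2

open ModularCurve AlgebraicCurve
open Fermat.Agent.H22.KL Fermat.Agent.H82.SS Fermat.Agent.H7.SS2

/-- **CHART-EQ**: at level `M' q q` the charts `j` and `j_q = j(t^q)` have the same integral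
closure: `j_q` is integral over `A₀[j]` and `j` is integral over `A₀[j_q]`.
(`j_q ∈ B(j)`: `Fermat.Agent.H66.SS.modelIntegral`.  `j ∈ B(j_q)`: at level `M' q` the
Atkin-Lehner automorphism `Wq` exchanges `j` and `j_q`; push forward by `α`.) -/
def ModelChartEqStatement (M' q : ℕ) [NeZero M'] [NeZero q] : Prop :=
  q.Prime → ¬ q ∣ M' →
  ∀ (K₁ : Type) [Field K₁] [Algebra ℚ K₁] [FiniteDimensional ℚ K₁]
    (A₀ : Type) [CommRing A₀] [IsDomain A₀] [IsDiscreteValuationRing A₀]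
    [Algebra A₀ K₁] [IsFractionRing A₀ K₁]
    [Algebra A₀ (ModelField K₁ (M' * q * q))]
    [IsScalarTower A₀ K₁ (ModelField K₁ (M' * q * q))]
    (Wq : ModelField K₁ (M' * q) ≃ₐ[K₁] ModelField K₁ (M' * q)),
    IsAtkinLehnerModel K₁ M' q Wq →
    ∀ (x xq : ModelField K₁ (M' * q * q)), (x : LaurentSeries K₁) = coeffEmb K₁ jq →
      (xq : LaurentSeries K₁) = qExpand K₁ q (coeffEmb K₁ jq) →
      chartClosure A₀ (ModelField K₁ (M' * q * q)) xq =
        chartClosure A₀ (ModelField K₁ (M' * q * q)) x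

/-- **UNIT3** (`(U2)`, `(U2')` of `Val3AbsStatement`): `Y₁ = H - H₁^q` is not a `q`-th power
modulo the maximal ideal of `V₁₀ = vInf`, and `X₁ = H₁ - H^q` is not a `q`-th power modulo the
maximal ideal of `V₀₁ = vZero Wq`.
(`h₀` has integral coefficients and a nonzero coefficient modulo `q` at some exponent prime to
`q` which is not an exponent of `H₁^q`: for the Hauptmoduln `h₀ = t⁻¹ + …` the exponent `-1`.
If `b = a / c` with `a`, `c` integral, `c` primitive and `Y₁ c^q - a^q ≡ 0 mod q`, then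
`Ȳ₁ = (ā / c̄)^q ∈ k((t^q))`, but `Ȳ₁` has the coefficient `1` at `t⁻¹`.  `(U2')` is the
`Wq`-transform of `(U2)`: `Wq H = H₁`, `Wq H₁ = H`.) -/
def ModelUnit3Statement (M' q : ℕ) [NeZero M'] [NeZero q] (h₀ : LaurentSeries ℤ) : Prop :=
  q.Prime → ¬ q ∣ M' →
  h₀.coeff (-1) = 1 → (∀ n : ℤ, n < -1 → h₀.coeff n = 0) →
  ∀ (K₁ : Type) [Field K₁] [Algebra ℚ K₁] [FiniteDimensional ℚ K₁]
    (A₀ : Type) [CommRing A₀] [IsDomain A₀] [IsDiscreteValuationRing A₀]
    [Algebra A₀ K₁] [IsFractionRing A₀ K₁],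
    Irreducible ((q : ℕ) : A₀) →
    ∀ (Wq : ModelField K₁ (M' * q) ≃ₐ[K₁] ModelField K₁ (M' * q)),
      IsAtkinLehnerModel K₁ M' q Wq →
    ∀ (H Hq : ModelField K₁ (M' * q)),
      (H : LaurentSeries K₁) = coeffMap (Int.castRingHom K₁) h₀ →
      (Hq : LaurentSeries K₁) = qExpand K₁ q (coeffMap (Int.castRingHom K₁) h₀) →
      Wq H = Hq → Wq Hq = H →
      (∀ b ∈ vInf K₁ A₀ (M' * q), (H - Hq ^ q) - b ^ q ∉ (vInf K₁ A₀ (M' * q)).nonunits) ∧
      (∀ b ∈ vZero K₁ A₀ (M' * q) Wq,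
        (Hq - H ^ q) - b ^ q ∉ (vZero K₁ A₀ (M' * q) Wq).nonunits)

/-- **VERT-IFF**: a valuation subring of `E` lies above `V₁₀` or `V₀₁` along `α` iff it does so
along `β`.
(Both sides say that `V` is vertical: by `Fermat.Agent.H7.SS2.vertical_eq_or` and
`isVertical_vInf`, `isVertical_vZero`, `V.comap φ ∈ {V₁₀, V₀₁}` iff `V.comap φ` is a vertical
valuation of the chart `j` of level `M' q`; `α j = j` and `β j = j_q` are integral over each
other (CHART-EQ at level `M' q`), so the residue class of one is transcendental over the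
residue field of `A₀` iff the residue class of the other is; a valuation subring of `F` which
contains `A₀[j]`, in which `q` is not a unit and the residue class of `j` is transcendental,
contains `C(j)`; discreteness passes to `V` (finite extension) and back.) -/
def ModelVertIffStatement (M' q : ℕ) [NeZero M'] [NeZero q] : Prop :=
  q.Prime → ¬ q ∣ M' →
  ∀ (K₁ : Type) [Field K₁] [Algebra ℚ K₁] [FiniteDimensional ℚ K₁]
    (A₀ : Type) [CommRing A₀] [IsDomain A₀] [IsDiscreteValuationRing A₀]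
    [Algebra A₀ K₁] [IsFractionRing A₀ K₁],
    Irreducible ((q : ℕ) : A₀) →
    ∀ (Wq : ModelField K₁ (M' * q) ≃ₐ[K₁] ModelField K₁ (M' * q)),
      IsAtkinLehnerModel K₁ M' q Wq →
    ∀ V : ValuationSubring (ModelField K₁ (M' * q * q)),
      (V.comap (heckeAlphaBar K₁ (M' * q) q).toRingHom = vInf K₁ A₀ (M' * q) ∨
        V.comap (heckeAlphaBar K₁ (M' * q) q).toRingHom = vZero K₁ A₀ (M' * q) Wq) ↔
      (V.comap (heckeBetaBar K₁ (M' * q) q).toRingHom = vInf K₁ A₀ (M' * q) ∨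
        V.comap (heckeBetaBar K₁ (M' * q) q).toRingHom = vZero K₁ A₀ (M' * q) Wq)

/-- **CUSP-ROOT** (the hypothesis `[IN-cusp]` of helper19's `KcAbsCusp`), at any level `N`:
the cusp `∞` is a closed point `𝔪` of the chart `j⁻¹` (`q ∈ 𝔪`, `j⁻¹ ∈ 𝔪`) such that every unit
`ε` of the local ring `B_𝔪` which is `≡ 1` on SOME valuation subring `V ⊇ B` through `𝔪` is,
up to a constant `c ≡ 1 mod q` of `A₀`, an `n`-th power in `K₁((t))`.
(`𝔪 = {s ∈ B(j⁻¹) | s(0) ∈ q A₀}`: `B(j⁻¹) ⊆ K₁[[t]]` because `j⁻¹ ∈ t ℤ[[t]]` and `K₁[[t]]` is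
integrally closed in `K₁((t))`; the constant coefficient `s(0)` is integral over `A₀`, so it
lies in `A₀`.  `ε - 1 ∈ 𝔪_V ∩ B_𝔪 ⊆ 𝔪 B_𝔪`, so `ε(0) ≡ 1 mod q`; `ε = ε(0) (1 + t g)`,
`1 + t g` is an `n`-th power in `K₁[[t]]` (characteristic zero), and `c = ε(0)^(n-1)`.) -/
def ModelCuspRootStatement (N q : ℕ) [NeZero N] : Prop :=
  ∀ (K₁ : Type) [Field K₁] [Algebra ℚ K₁] [FiniteDimensional ℚ K₁]
    (A₀ : Type) [CommRing A₀] [IsDomain A₀] [IsDiscreteValuationRing A₀]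
    [Algebra A₀ K₁] [IsFractionRing A₀ K₁]
    [Algebra A₀ (ModelField K₁ N)] [IsScalarTower A₀ K₁ (ModelField K₁ N)],
    Irreducible ((q : ℕ) : A₀) →
    ∀ (x : ModelField K₁ N), (x : LaurentSeries K₁) = coeffEmb K₁ jq →
    ∃ 𝔪 : Ideal (chartClosure A₀ (ModelField K₁ N) x⁻¹), 𝔪.IsMaximal ∧
      algebraMap A₀ (chartClosure A₀ (ModelField K₁ N) x⁻¹) ((q : ℕ) : A₀) ∈ 𝔪 ∧
      (∀ s : chartClosure A₀ (ModelField K₁ N) x⁻¹, (s : ModelField K₁ N) = x⁻¹ → s ∈ 𝔪) ∧
      ∀ V : ValuationSubring (ModelField K₁ N),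
        (∀ z ∈ chartClosure A₀ (ModelField K₁ N) x⁻¹, z ∈ V) →
        Through A₀ (ModelField K₁ N) x⁻¹ 𝔪 V →
        ∀ n : ℕ, 0 < n →
        ∀ ε : ModelField K₁ N, IsLocUnit A₀ (ModelField K₁ N) x⁻¹ 𝔪 ε →
          ε - 1 ∈ V.nonunits →
          ∃ c d : A₀, c = 1 + ((q : ℕ) : A₀) * d ∧
            ∃ ω : LaurentSeries K₁,
              ω ^ n = algebraMap K₁ (LaurentSeries K₁) (algebraMap A₀ K₁ c) *
                (ε : LaurentSeries K₁)

end Fermat.Agent.H11.SS2
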